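/-
PROJECT M, block [V] (S12/S09 endgame), slice V-abs (helper22): the abstract Mazur tower.

Pure group theory plus Minkowski (`S13/Minkowski.eq_top_of_inertia_le`).  No curve theory.

A *level* is an abelian group `E` with an action of `GQ = Gal(ℚ̄/ℚ)` and a marked point `Q`:

* `Good p Q`  : `Q` is fixed by `GQ`, has order `p`, every point of `E` has an open stabiliser
  (it is fixed by the fixing subgroup of some number field), and the local condition
  `LocFree Q` holds: for every place `A` of `ℚ̄` over every prime and every `σ` in the inertia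
  group of `A`, a point `x` with `σ x - x ∈ ⟨Q⟩` is fixed by `σ`.
* `Step p Q Q' ψ` : `ψ : E' →+ E` is equivariant and surjective, its kernel is contained in
  `⟨Q'⟩`, and `ψ (E'[p]) ∩ ⟨Q⟩ = 0`.

`Inv p i Q R` says that `R` is a `GQ`-fixed point of order `p ^ (i + 1)` with `p ^ i • R ∈ ⟨Q⟩`.
`Inv.step` lifts such a point along a `Step`.  `false_of_tower` is the endgame: a class of good
levels closed under `Step`, with a uniform bound on the order of fixed points of `p`-power order,
is empty.
-/
import Fermat.Agent.S13.Minkowski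

set_option autoImplicit false

namespace Fermat.Agent.S12.Tower

local notation "Qbar" => AlgebraicClosure ℚ
local notation "GQ" => (AlgebraicClosure ℚ ≃ₐ[ℚ] AlgebraicClosure ℚ)

section Level

variable {E : Type*} [AddCommGroup E] [DistribMulAction GQ E]

/-- **(loc)** The local hypothesis at all places for the marked point `Q`: an inertia element
which moves `x` by a multiple of `Q` fixes `x`. -/
def LocFree (Q : E) : Prop :=
  ∀ l : ℕ, l.Prime → ∀ A : ValuationSubring Qbar, A.LiesOverPrime l →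
    ∀ σ ∈ A.inertiaSubgroupIn ℚ, ∀ x : E,
      σ • x - x ∈ AddSubgroup.zmultiples Q → σ • x = x

/-- The point `x` is fixed by the fixing subgroup of some number field inside `ℚ̄`. -/
def OpenStab (x : E) : Prop :=
  ∃ K : IntermediateField ℚ Qbar, FiniteDimensional ℚ K ∧ ∀ σ ∈ K.fixingSubgroup, σ • x = x

/-- A point with open stabiliser which every Galois element moves by a multiple of `Q` is
Galois-fixed, provided `Q` satisfies **(loc)**.  (The map `σ ↦ σ x - x` is a homomorphism to
`⟨Q⟩`, unramified everywhere; Minkowski.) -/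
theorem fixed_of_locFree {Q x : E} (hloc : LocFree Q) (hx : OpenStab x)
    (hc : ∀ σ : GQ, σ • x - x ∈ AddSubgroup.zmultiples Q) (σ : GQ) : σ • x = x := by
  obtain ⟨K, hK, hKx⟩ := hx
  have key := Fermat.Agent.S13.Minkowski.mem_of_inertia_le (MulAction.stabilizer GQ x) K
    (fun τ hτ => MulAction.mem_stabilizer_iff.mpr (hKx τ hτ))
    (fun l hl A hA τ hτ => MulAction.mem_stabilizer_iff.mpr (hloc l hl A hA τ hτ x (hc τ))) σ
  exact MulAction.mem_stabilizer_iff.mp key

/-- A good level: marked rational point of order `p`, open stabilisers, **(loc)**. -/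
structure Good (p : ℕ) (Q : E) : Prop where
  fixQ : ∀ σ : GQ, σ • Q = Q
  ordQ : addOrderOf Q = p
  openStab : ∀ x : E, OpenStab x
  loc : LocFree Q

/-- The tower invariant: a fixed point `R` of order `p ^ (i + 1)` sitting over `⟨Q⟩`. -/
structure Inv (p i : ℕ) (Q R : E) : Prop where
  fixR : ∀ σ : GQ, σ • R = R
  ordR : addOrderOf R = p ^ (i + 1)
  top : p ^ i • R ∈ AddSubgroup.zmultiples Q

/-- The base of the tower. -/
theorem Inv.base {p : ℕ} {Q : E} (h : Good p Q) : Inv p 0 Q Q where
  fixR := h.fixQ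
  ordR := by rw [h.ordQ, zero_add, pow_one]
  top := by
    rw [pow_zero, one_smul]
    exact AddSubgroup.mem_zmultiples Q

end Level

section Step

variable {E E' : Type*} [AddCommGroup E] [AddCommGroup E'] [DistribMulAction GQ E]
  [DistribMulAction GQ E']

/-- One step of the tower: `ψ : E' → E` is the (dual) isogeny with kernel `⟨Q'⟩`, and the image of
`E'[p]` meets `⟨Q⟩` trivially. -/
structure Step (p : ℕ) (Q : E) (Q' : E') (ψ : E' →+ E) : Prop where
  equiv : ∀ (σ : GQ) (x : E'), ψ (σ • x) = σ • ψ x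
  surj : Function.Surjective ψ
  ker : ∀ x : E', ψ x = 0 → x ∈ AddSubgroup.zmultiples Q'
  indep : ∀ y : E', p • y = 0 → ψ y ∈ AddSubgroup.zmultiples Q → ψ y = 0

/-- Lifting the invariant along one step. -/
theorem Inv.step {p i : ℕ} (hp : p.Prime) {Q R : E} {Q' : E'} {ψ : E' →+ E}
    (hQ' : Good p Q') (hψ : Step p Q Q' ψ) (hR : Inv p i Q R) :
    ∃ R' : E', Inv p (i + 1) Q' R' ∧ ψ R' = R := by
  obtain ⟨R', hR'⟩ := hψ.surj R
  refine ⟨R', ?_, hR'⟩
  have hpQ' : p • Q' = 0 := by
    have := addOrderOf_nsmul_eq_zero Q'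
    rwa [hQ'.ordQ] at this
  -- `p ^ (i + 1) • R'` lies in the kernel, hence in `⟨Q'⟩`
  have hker : p ^ (i + 1) • R' ∈ AddSubgroup.zmultiples Q' := by
    apply hψ.ker
    rw [map_nsmul, hR', ← hR.ordR]
    exact addOrderOf_nsmul_eq_zero R
  -- it is killed by `p`
  have hkill : p ^ (i + 2) • R' = 0 := by
    obtain ⟨k, hk⟩ := AddSubgroup.mem_zmultiples_iff.mp hker
    rw [pow_succ, mul_comm, mul_smul, ← hk, smul_comm, hpQ', smul_zero]
  -- it is nonzero
  have hne : p ^ (i + 1) • R' ≠ 0 := by
    intro h0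
    have hy : p • (p ^ i • R') = 0 := by
      rw [← mul_smul, ← pow_succ']
      exact h0
    have hψy : ψ (p ^ i • R') ∈ AddSubgroup.zmultiples Q := by
      rw [map_nsmul, hR']
      exact hR.top
    have h1 := hψ.indep _ hy hψy
    rw [map_nsmul, hR'] at h1
    have h2 : p ^ (i + 1) ∣ p ^ i := by
      rw [← hR.ordR]
      exact addOrderOf_dvd_of_nsmul_eq_zero h1
    have h3 : i + 1 ≤ i := (Nat.pow_dvd_pow_iff_le_right hp.one_lt).mp h2
    omega
  refine ⟨?_, ?_, hker⟩
  · -- Galois-fixed: Minkowski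
    refine fixed_of_locFree hQ'.loc (hQ'.openStab R') ?_
    intro σ
    apply hψ.ker
    rw [map_sub, hψ.equiv, hR', hR.fixR, sub_self]
  · -- the order is exactly `p ^ (i + 2)`
    have : Fact p.Prime := ⟨hp⟩
    exact addOrderOf_eq_prime_pow (p := p) (n := i + 1) hne hkill

end Step

/-- **Endgame.**  A class `𝓛` of good levels which is closed under `Step` and has a uniform bound
on the order of Galois-fixed points of `p`-power order is empty. -/
theorem false_of_tower {𝓛 : Type*} (E : 𝓛 → Type*) [∀ L, AddCommGroup (E L)]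
    [∀ L, DistribMulAction GQ (E L)] (Q : ∀ L, E L) {p : ℕ} (hp : p.Prime)
    (hgood : ∀ L, Good p (Q L))
    (hstep : ∀ L, ∃ (L' : 𝓛) (ψ : E L' →+ E L), Step p (Q L) (Q L') ψ)
    (B : ℕ)
    (hB : ∀ (L : 𝓛) (R : E L), (∀ σ : GQ, σ • R = R) → ∀ n : ℕ, addOrderOf R = p ^ n → p ^ n ≤ B)
    (L₀ : 𝓛) : False := by
  have key : ∀ n : ℕ, ∃ (L : 𝓛) (R : E L), Inv p n (Q L) R := by
    intro n
    induction n with
    | zero => exact ⟨L₀, Q L₀, Inv.base (hgood L₀)⟩
    | succ n ih =>
      obtain ⟨L, R, hR⟩ := ih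
      obtain ⟨L', ψ, hψ⟩ := hstep L
      obtain ⟨R', hR', -⟩ := Inv.step hp (hgood L') hψ hR
      exact ⟨L', R', hR'⟩
  obtain ⟨L, R, hR⟩ := key B
  have h1 : p ^ (B + 1) ≤ B := hB L R hR.fixR (B + 1) hR.ordR
  have h2 : B + 1 < p ^ (B + 1) := Nat.lt_pow_self hp.one_lt
  omega

end Fermat.Agent.S12.Tower
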