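/-
PROJECT M, block [V] (S12/S09 endgame), slice V-adm (helper22): admissibility from local data.

`V` is a two-dimensional `𝔽_p`-vector space with an action of `GQ = Gal(ℚ̄/ℚ)` (in the application
`V = E[p]`), `q ∈ V` a nonzero Galois-fixed vector (the rational point of order `p`) whose quotient
line is cyclotomic.  From one submodule `Z_A` per place `A` (the `p`-torsion of the connected
component `E⁰` resp. of the kernel of reduction `K1`) we produce the prelude's
`ExtCitation.IsAdmissibleExtensionCts p V (span {q})`, so that `S14` yields a Galois-stable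
complement of `⟨q⟩`.

* `isCompl_span_of_not_mem` : a nonzero submodule `Z ∌ q` of `V` (`#V = p²`) is a complement of
  `⟨q⟩`;
* `isAdmissibleExtensionCts_of_local` : the admissibility statement;
* `exists_stable_compl` : its consequence through `ExtVanishingCts p`, with the cyclotomic action
  on the complement made explicit.
-/
import Fermat.Agent.S13.LineAlgebra
import Fermat.Prelude.Def_ExtCitation_AdmissibleExtension_v2

set_option autoImplicit false

namespace Fermat.Agent.S12.Tower

open ExtCitation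

local notation "Qbar" => AlgebraicClosure ℚ
local notation "GQ" => (AlgebraicClosure ℚ ≃ₐ[ℚ] AlgebraicClosure ℚ)

section Line

variable {p : ℕ} [hp : Fact p.Prime] {V : Type*} [AddCommGroup V] [Module (ZMod p) V]

/-- The line spanned by a nonzero vector has `p` elements. -/
theorem card_span_singleton {q : V} (hq : q ≠ 0) :
    Nat.card (Submodule.span (ZMod p) {q}) = p := by
  have hbij : Function.Bijective
      (fun a : ZMod p => (⟨a • q, Submodule.smul_mem _ a (Submodule.mem_span_singleton_self q)⟩ :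
        Submodule.span (ZMod p) {q})) := by
    constructor
    · intro a b hab
      have h1 : a • q = b • q := congrArg Subtype.val hab
      have h2 : (a - b) • q = 0 := by rw [sub_smul, h1, sub_self]
      by_contra hne
      have h3 : a - b ≠ 0 := sub_ne_zero.mpr hne
      apply hq
      have h4 : (a - b)⁻¹ • ((a - b) • q) = q := by
        rw [smul_smul, inv_mul_cancel₀ h3, one_smul]
      rw [← h4, h2, smul_zero]
    · rintro ⟨x, hx⟩
      obtain ⟨a, rfl⟩ := Submodule.mem_span_singleton.mp hx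
      exact ⟨a, rfl⟩
  rw [← Nat.card_congr (Equiv.ofBijective _ hbij), Nat.card_zmod]

/-- The line spanned by `q ∉ Z` meets `Z` trivially. -/
theorem disjoint_span_of_not_mem {q : V} {Z : Submodule (ZMod p) V} (hqZ : q ∉ Z) :
    Disjoint (Submodule.span (ZMod p) {q}) Z := by
  rw [Submodule.disjoint_def]
  intro x hx hxZ
  obtain ⟨a, rfl⟩ := Submodule.mem_span_singleton.mp hx
  by_cases ha : a = 0
  · rw [ha, zero_smul]
  · exfalso
    apply hqZ
    have h4 : a⁻¹ • (a • q) = q := by
      rw [smul_smul, inv_mul_cancel₀ ha, one_smul]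
    rw [← h4]
    exact Z.smul_mem _ hxZ

/-- In a plane over `𝔽_p`, a nonzero submodule not containing `q` is a complement of `⟨q⟩`. -/
theorem isCompl_span_of_not_mem (hV : Nat.card V = p ^ 2) {q : V}
    {Z : Submodule (ZMod p) V} (hqZ : q ∉ Z) (hZ : Z ≠ ⊥) :
    IsCompl (Submodule.span (ZMod p) {q}) Z := by
  refine ⟨disjoint_span_of_not_mem hqZ, ?_⟩
  rw [codisjoint_iff]
  by_contra htop
  have hfin : Finite V :=
    Nat.finite_of_card_ne_zero (by rw [hV]; exact pow_ne_zero _ hp.out.ne_zero)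
  have hq : q ∈ Submodule.span (ZMod p) {q} ⊔ Z :=
    Submodule.mem_sup_left (Submodule.mem_span_singleton_self q)
  have hZtop : Z ≠ ⊤ := fun h => hqZ (h ▸ Submodule.mem_top)
  have hSbot : Submodule.span (ZMod p) {q} ⊔ Z ≠ ⊥ := by
    intro h
    apply hZ
    exact eq_bot_iff.mpr (h ▸ le_sup_right)
  have hcS := Fermat.Agent.S13.LineAlgebra.card_eq_of_ne_bot_of_ne_top hV _ hSbot htop
  have hcZ := Fermat.Agent.S13.LineAlgebra.card_eq_of_ne_bot_of_ne_top hV Z hZ hZtop
  -- `Z ≤ S` with the same finite cardinality, so `Z = S ∋ q`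
  have hle : Z ≤ Submodule.span (ZMod p) {q} ⊔ Z := le_sup_right
  have heq : Z = Submodule.span (ZMod p) {q} ⊔ Z := by
    apply Submodule.toAddSubgroup_injective
    have hle' : Z.toAddSubgroup ≤ (Submodule.span (ZMod p) {q} ⊔ Z).toAddSubgroup := hle
    exact AddSubgroup.eq_of_le_of_card_ge hle' (by
      change Nat.card (Submodule.span (ZMod p) {q} ⊔ Z : Submodule (ZMod p) V) ≤ Nat.card Z
      rw [hcS, hcZ])
  exact hqZ (heq ▸ hq)

end Line

section Adm

variable {p : ℕ} [hp : Fact p.Prime] {V : Type} [AddCommGroup V] [Module (ZMod p) V]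
  [DistribMulAction GQ V] [SMulCommClass GQ (ZMod p) V]

/-- The pointwise kernel of the action is open as soon as every vector of the finite module `V`
is fixed by the fixing subgroup of a number field. -/
theorem isOpen_kernel_of_openStab [Finite V]
    (hopen : ∀ v : V, ∃ K : IntermediateField ℚ Qbar, FiniteDimensional ℚ K ∧
      ∀ σ ∈ K.fixingSubgroup, σ • v = v) :
    IsOpen {σ : GQ | ∀ v : V, σ • v = v} := by
  choose K hKfd hKfix using hopen
  have : ∀ v, FiniteDimensional ℚ (K v) := hKfd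
  have hfd : FiniteDimensional ℚ (⨆ v, K v : IntermediateField ℚ Qbar) :=
    IntermediateField.finiteDimensional_iSup_of_finite
  let H : Subgroup GQ :=
    { carrier := {σ : GQ | ∀ v : V, σ • v = v}
      mul_mem' := fun {a b} ha hb v => by rw [mul_smul, hb v, ha v]
      one_mem' := fun v => one_smul _ v
      inv_mem' := fun {a} ha v => by
        have := ha v
        calc a⁻¹ • v = a⁻¹ • (a • v) := by rw [this]
          _ = v := inv_smul_smul a v }
  have hle : (⨆ v, K v : IntermediateField ℚ Qbar).fixingSubgroup ≤ H := by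
    intro σ hσ v
    exact hKfix v σ (IntermediateField.fixingSubgroup_le (le_iSup K v) hσ)
  exact Subgroup.isOpen_mono hle (IntermediateField.fixingSubgroup_isOpen _)

/-- **(V-adm)** Admissibility of `(V, ⟨q⟩)` from local data.

* `hout` : at a place `A` over `ℓ ≠ p` a submodule `Z` (the `p`-torsion of `E⁰`, resp. of `K1`) not
  containing `q`, into which inertia moves every vector and on which inertia acts trivially;
* `hloc` : at a place `A` over `p` a nonzero submodule `Z ∌ q` stable under the decomposition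
  group. -/
theorem isAdmissibleExtensionCts_of_local (hV : Nat.card V = p ^ 2) {q : V} (hq : q ≠ 0)
    (hfix : ∀ σ : GQ, σ • q = q)
    (hcyc : ∀ (σ : GQ) (x : V),
      σ • x - (cycloExp p σ : ZMod p) • x ∈ Submodule.span (ZMod p) {q})
    (hout : ∀ ℓ : ℕ, ℓ.Prime → ℓ ≠ p → ∀ A : ValuationSubring Qbar, A.LiesOverPrime ℓ →
      ∃ Z : Submodule (ZMod p) V, q ∉ Z ∧ ∀ σ ∈ A.inertiaSubgroupIn ℚ,
        (∀ x : V, σ • x - x ∈ Z) ∧ ∀ z ∈ Z, σ • z = z)
    (hloc : ∀ A : ValuationSubring Qbar, A.LiesOverPrime p →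
      ∃ Z : Submodule (ZMod p) V, q ∉ Z ∧ Z ≠ ⊥ ∧
        ∀ σ ∈ A.decompositionSubgroup ℚ, ∀ z ∈ Z, σ • z ∈ Z)
    (hopen : ∀ v : V, ∃ K : IntermediateField ℚ Qbar, FiniteDimensional ℚ K ∧
      ∀ σ ∈ K.fixingSubgroup, σ • v = v) :
    IsAdmissibleExtensionCts p V (Submodule.span (ZMod p) {q}) := by
  have hfin : Finite V :=
    Nat.finite_of_card_ne_zero (by rw [hV]; exact pow_ne_zero _ hp.out.ne_zero)
  have hfixC : ∀ σ : GQ, ∀ x ∈ Submodule.span (ZMod p) {q}, σ • x = x := by
    intro σ x hx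
    obtain ⟨a, rfl⟩ := Submodule.mem_span_singleton.mp hx
    rw [smul_comm, hfix]
  refine
    { stable := fun σ x hx => by rw [hfixC σ x hx]; exact hx
      fixed_sub := hfixC
      cyclo_quot := hcyc
      card_sub := card_span_singleton hq
      card_total := hV
      unramified_outside := ?_
      locally_split := ?_
      open_kernel := isOpen_kernel_of_openStab hopen }
  · intro ℓ hℓ hℓp A hA σ hσ x
    obtain ⟨Z, hqZ, hZ⟩ := hout ℓ hℓ hℓp A hA
    obtain ⟨hmove, hfixZ⟩ := hZ σ hσ
    by_cases hZbot : Z = ⊥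
    · have := hmove x
      rw [hZbot, Submodule.mem_bot, sub_eq_zero] at this
      exact this
    · have hc := isCompl_span_of_not_mem hV hqZ hZbot
      have hx : x ∈ Submodule.span (ZMod p) {q} ⊔ Z := by
        rw [hc.sup_eq_top]; exact Submodule.mem_top
      obtain ⟨c, hcC, z, hzZ, rfl⟩ := Submodule.mem_sup.mp hx
      rw [smul_add, hfixC σ c hcC, hfixZ z hzZ]
  · intro A hA
    obtain ⟨Z, hqZ, hZbot, hstab⟩ := hloc A hA
    exact ⟨Z, hstab, isCompl_span_of_not_mem hV hqZ hZbot⟩

/-- **(V-adm) + S14.**  Under the hypotheses of `isAdmissibleExtensionCts_of_local` and the Ext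
vanishing `ExtVanishingCts p` (statement S14), `⟨q⟩` has a Galois-stable complement `M`, and the
Galois group acts on `M` through the cyclotomic character. -/
theorem exists_stable_compl (hS14 : ExtVanishingCts p) (hV : Nat.card V = p ^ 2) {q : V}
    (hq : q ≠ 0) (hfix : ∀ σ : GQ, σ • q = q)
    (hcyc : ∀ (σ : GQ) (x : V),
      σ • x - (cycloExp p σ : ZMod p) • x ∈ Submodule.span (ZMod p) {q})
    (hout : ∀ ℓ : ℕ, ℓ.Prime → ℓ ≠ p → ∀ A : ValuationSubring Qbar, A.LiesOverPrime ℓ →
      ∃ Z : Submodule (ZMod p) V, q ∉ Z ∧ ∀ σ ∈ A.inertiaSubgroupIn ℚ,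
        (∀ x : V, σ • x - x ∈ Z) ∧ ∀ z ∈ Z, σ • z = z)
    (hloc : ∀ A : ValuationSubring Qbar, A.LiesOverPrime p →
      ∃ Z : Submodule (ZMod p) V, q ∉ Z ∧ Z ≠ ⊥ ∧
        ∀ σ ∈ A.decompositionSubgroup ℚ, ∀ z ∈ Z, σ • z ∈ Z)
    (hopen : ∀ v : V, ∃ K : IntermediateField ℚ Qbar, FiniteDimensional ℚ K ∧
      ∀ σ ∈ K.fixingSubgroup, σ • v = v) :
    ∃ M : Submodule (ZMod p) V, IsCompl (Submodule.span (ZMod p) {q}) M ∧
      (∀ σ : GQ, ∀ x ∈ M, σ • x ∈ M) ∧
      ∀ σ : GQ, ∀ x ∈ M, σ • x = (cycloExp p σ : ZMod p) • x := by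
  obtain ⟨M, hM, hc⟩ := hS14 V _
    (isAdmissibleExtensionCts_of_local hV hq hfix hcyc hout hloc hopen)
  refine ⟨M, hc, hM, ?_⟩
  intro σ x hx
  have h1 : σ • x - (cycloExp p σ : ZMod p) • x ∈ M :=
    M.sub_mem (hM σ x hx) (M.smul_mem _ hx)
  have h2 := hcyc σ x
  have h3 : σ • x - (cycloExp p σ : ZMod p) • x = 0 :=
    (Submodule.disjoint_def.mp hc.disjoint) _ h2 h1
  exact sub_eq_zero.mp h3

end Adm

end Fermat.Agent.S12.Tower
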