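/-
PROJECT M, block [V] (S12/S09 endgame), slice V-step (helper22): one step of the tower from a
quotient interface.

`E`, `E'` abelian groups with `GQ`-action (the `ℚ̄`-points of a curve and of its quotient),
`Q ∈ E[p]` the marked point, `μ ≤ E` a complement of `⟨Q⟩` in `E[p]` (from S14), and

* `φ : E →+ E'` surjective with kernel `μ`            (the quotient isogeny),
* `ψ : E' →+ E` equivariant with `ψ ∘ φ = [p]`         (its dual),
* `E` is `p`-divisible.

Then `Step p Q (φ Q) ψ` holds (`step_of_quot`), `φ Q` has order `p` (`addOrderOf_quot`), and the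
cyclotomic action on `μ` is inherited by `E'[p] / ⟨φ Q⟩` (`cyclo_of_quot`).
-/
import Fermat.Agent.S12.Tower.Abs

set_option autoImplicit false

namespace Fermat.Agent.S12.Tower

local notation "Qbar" => AlgebraicClosure ℚ
local notation "GQ" => (AlgebraicClosure ℚ ≃ₐ[ℚ] AlgebraicClosure ℚ)

variable {E E' : Type*} [AddCommGroup E] [AddCommGroup E'] [DistribMulAction GQ E]
  [DistribMulAction GQ E']

/-- The quotient interface of one step. -/
structure Quot (p : ℕ) (Q : E) (μ : AddSubgroup E) (φ : E →+ E') (ψ : E' →+ E) : Prop where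
  φ_surj : Function.Surjective φ
  φ_ker : ∀ x : E, φ x = 0 ↔ x ∈ μ
  ψ_φ : ∀ x : E, ψ (φ x) = p • x
  ψ_equiv : ∀ (σ : GQ) (x : E'), ψ (σ • x) = σ • ψ x
  div : ∀ x : E, ∃ y : E, p • y = x
  dec : ∀ x : E, p • x = 0 → ∃ (a : ℤ) (m : E), m ∈ μ ∧ x = a • Q + m
  indep : ∀ m ∈ μ, m ∈ AddSubgroup.zmultiples Q → m = 0

namespace Quot

variable {p : ℕ} {Q : E} {μ : AddSubgroup E} {φ : E →+ E'} {ψ : E' →+ E}

/-- The kernel of the dual isogeny is `⟨φ Q⟩`. -/
theorem ker_ψ (h : Quot p Q μ φ ψ) {x : E'} (hx : ψ x = 0) :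
    x ∈ AddSubgroup.zmultiples (φ Q) := by
  obtain ⟨y, rfl⟩ := h.φ_surj x
  have hy : p • y = 0 := by rw [← h.ψ_φ, hx]
  obtain ⟨a, m, hm, rfl⟩ := h.dec y hy
  rw [map_add, map_zsmul, (h.φ_ker m).mpr hm, add_zero]
  exact AddSubgroup.zsmul_mem _ (AddSubgroup.mem_zmultiples _) a

/-- The dual isogeny maps `E'[p]` into `μ`. -/
theorem ψ_mem (h : Quot p Q μ φ ψ) {x : E'} (hx : p • x = 0) : ψ x ∈ μ := by
  obtain ⟨y, rfl⟩ := h.φ_surj x
  rw [h.ψ_φ]
  apply (h.φ_ker _).mp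
  rw [map_nsmul, hx]

/-- **(V-step)** The quotient interface gives a step of the tower. -/
theorem step_of_quot (h : Quot p Q μ φ ψ) : Step p Q (φ Q) ψ where
  equiv := h.ψ_equiv
  surj := fun x => by
    obtain ⟨y, hy⟩ := h.div x
    exact ⟨φ y, by rw [h.ψ_φ, hy]⟩
  ker := fun _ hx => h.ker_ψ hx
  indep := fun y hy hmem => h.indep _ (h.ψ_mem hy) hmem

/-- The new marked point has order `p`. -/
theorem addOrderOf_quot (h : Quot p Q μ φ ψ) (hp : p.Prime) (hQ : addOrderOf Q = p) :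
    addOrderOf (φ Q) = p := by
  have hpQ : p • Q = 0 := by
    have := addOrderOf_nsmul_eq_zero Q
    rwa [hQ] at this
  have hQ0 : Q ≠ 0 := by
    intro h0
    rw [h0, addOrderOf_zero] at hQ
    exact hp.one_lt.ne hQ
  have : Fact p.Prime := ⟨hp⟩
  apply addOrderOf_eq_prime
  · rw [← map_nsmul, hpQ, map_zero]
  · intro h0
    exact hQ0 (h.indep Q ((h.φ_ker Q).mp h0) (AddSubgroup.mem_zmultiples Q))

/-- The new marked point is Galois-fixed when `φ` is equivariant. -/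
theorem fixed_quot (hφ : ∀ (σ : GQ) (x : E), φ (σ • x) = σ • φ x)
    (hQ : ∀ σ : GQ, σ • Q = Q) (σ : GQ) : σ • φ Q = φ Q := by
  rw [← hφ, hQ]

/-- The cyclotomic action on `μ` is inherited by `E'[p] / ⟨φ Q⟩`: if `σ m = n • m` for all
`m ∈ μ`, then `σ x - n • x ∈ ⟨φ Q⟩` for every `x ∈ E'[p]`. -/
theorem cyclo_of_quot (h : Quot p Q μ φ ψ) {σ : GQ} {n : ℕ}
    (hμ : ∀ m ∈ μ, σ • m = n • m) {x : E'} (hx : p • x = 0) :
    σ • x - n • x ∈ AddSubgroup.zmultiples (φ Q) := by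
  apply h.ker_ψ
  rw [map_sub, h.ψ_equiv, map_nsmul, hμ _ (h.ψ_mem hx), sub_self]

end Quot

end Fermat.Agent.S12.Tower
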